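import Fermat.Agent.BR.F.Interface
import Fermat.Agent.BR.F.ALField
import Fermat.Agent.INJ.Inst.DescentDeg
import Fermat.Agent.INJ.Inst.DescentPlaces

/-!
# BR / GLUE : Theorem G at all levels from Theorem G at the levels divisible by an auxiliary prime

`Stmt_GA` : Theorem G (in helper22's language, `d = 1`) at the levels `N` divisible by an auxiliary
prime `a ∈ {2, 3}`, `a ≠ r`.   `stmt_G_of_GA : Stmt_GA → F.Stmt_G` (norm descent from
`lcm(N, a)` to `N`, `d = [F_{lcm(N,a)} : F_N]`).                                   (helper20)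
-/

set_option autoImplicit false
set_option synthInstance.maxHeartbeats 400000
set_option linter.style.haveILetI false

namespace Fermat.Agent.BR

open AlgebraicCurve IntermediateField ModularCurve
open Fermat.Agent.S24 (Qbar FF funAlg jBar)
open Fermat.Agent.S24.QX (qExpHom qExpHom_injective)
open Fermat.Agent.ES.Mid Fermat.Agent.BR.F Fermat.Agent.INJ.Inst.Descent

/-- **Theorem G at the levels divisible by an auxiliary prime** `a ∈ {2, 3}`, `a ≠ r`. -/
def Stmt_GA : Prop :=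
  ∀ (N : ℕ) [NeZero N] (r a : ℕ), r.Prime → r ∣ N → ¬ r ^ 2 ∣ N → (a = 2 ∨ a = 3) → a ≠ r →
    a ∣ N → ∀ w : FF N ≃ₐ[Qbar] FF N, IsAL N r w →
      ∀ A : ValuationSubring Qbar, A.LiesOverPrime r → ∀ m : ℕ, ¬ r ∣ m →
        ∀ u : FF N, IsDiv N m u → CongOne N A u → ClassCong N m A (w u) →
          (∀ τ ∈ A.inertiaSubgroupIn ℚ, ∃ g : FF N, g ^ m = gal N τ u * u⁻¹) ∧
          (∀ σ : GQ, A.IsFrobeniusAt σ r →
            ∃ g : FF N, g ^ m = gal N σ (gal N σ u) * (u ^ (r ^ 2))⁻¹)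

section Inc

variable {N N' : ℕ} [NeZero N] [NeZero N'] (hNN' : N ∣ N')

/-- the inclusion `F_N → F_{N'}`, `N ∣ N'`. -/
noncomputable def inc : FF N →ₐ[Qbar] FF N' := IntermediateField.inclusion (bar_le hNN')

theorem coe_inc (u : FF N) : ((inc hNN' u : FF N') : LaurentSeries Qbar) = u :=
  IntermediateField.coe_inclusion (bar_le hNN') u

theorem inc_jBar (d : ℕ) [NeZero d] (hd : d ∣ N) :
    inc hNN' (jBar N d hd) = jBar N' d (hd.trans hNN') :=
  Subtype.ext (coe_inc hNN' _)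

theorem gal_inc (σ : GQ) (u : FF N) : gal N' σ (inc hNN' u) = inc hNN' (gal N σ u) := by
  apply Subtype.ext
  rw [coe_gal, coe_inc, coe_inc, coe_gal]

theorem congOne_inc {A : ValuationSubring Qbar} {u : FF N} (h : CongOne N A u) :
    CongOne N' A (inc hNN' u) := by
  obtain ⟨y₁, y₂, h₁, h₂, huy, hred, hne⟩ := h
  exact ⟨y₁, y₂, bar_le hNN' h₁, bar_le hNN' h₂, huy, hred, hne⟩

theorem isDiv_inc {m : ℕ} {u : FF N} (h : IsDiv N m u) : IsDiv N' m (inc hNN' u) := by
  letI : Algebra (modularFunctionFieldBar N) (modularFunctionFieldBar N') :=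
    (IntermediateField.inclusion (bar_le hNN')).toRingHom.toAlgebra
  haveI : IsScalarTower Qbar (modularFunctionFieldBar N) (modularFunctionFieldBar N') :=
    IsScalarTower.of_algebraMap_eq (fun x => rfl)
  refine ⟨(map_ne_zero _).2 h.1, fun P' => ?_⟩
  exact places_dvd (K := Qbar) (F' := modularFunctionFieldBar N') (m : ℤ) u h.2 P'

/-- two ring homomorphisms from `F_N` to a field agreeing on the constants and on the `j_d` are
equal. -/
theorem eq_of_gens' {L : Type*} [Field L] (φ ψ : FF N →+* L)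
    (hc : ∀ c : Qbar, φ (algebraMap Qbar (FF N) c) = ψ (algebraMap Qbar (FF N) c))
    (hj : ∀ (d : ℕ) [NeZero d] (hd : d ∣ N), φ (jBar N d hd) = ψ (jBar N d hd))
    (u : FF N) : φ u = ψ u := by
  obtain ⟨a, b, hb, hab⟩ := HG.exists_quot N u
  have hb' : qExpHom N b ≠ 0 := fun h => hb (qExpHom_injective N (by rw [h, map_zero]))
  have h1 : φ u * φ (qExpHom N b) = φ (qExpHom N a) := by rw [← map_mul, hab]
  have h2 : ψ u * ψ (qExpHom N b) = ψ (qExpHom N a) := by rw [← map_mul, hab]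
  rw [W3.eq_on_funAlg N φ ψ hc hj a, W3.eq_on_funAlg N φ ψ hc hj b, ← h2] at h1
  exact mul_right_cancel₀ ((map_ne_zero ψ).2 hb') h1

/-- Atkin-Lehner involutions at the levels `N ∣ N'` are compatible. -/
theorem inc_al {r : ℕ} (hr : r.Prime) (hrN : r ∣ N) {w : FF N ≃ₐ[Qbar] FF N}
    {w' : FF N' ≃ₐ[Qbar] FF N'} (hw : IsAL N r w) (hw' : IsAL N' r w') (u : FF N) :
    inc hNN' (w u) = w' (inc hNN' u) := by
  refine eq_of_gens' ((inc hNN' : FF N →+* FF N').comp (w : FF N →+* FF N))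
    ((w' : FF N' →+* FF N').comp (inc hNN' : FF N →+* FF N')) (fun c => ?_) (fun d _ hd => ?_) u
  · show inc hNN' (w (algebraMap Qbar (FF N) c)) = w' (inc hNN' (algebraMap Qbar (FF N) c))
    rw [w.commutes, (inc hNN').commutes, w'.commutes]
  · show inc hNN' (w (jBar N d hd)) = w' (inc hNN' (jBar N d hd))
    by_cases hrd : r ∣ d
    · obtain ⟨d', rfl⟩ := hrd
      have hd'0 : NeZero d' := ⟨by
        rintro rfl
        exact NeZero.ne (r * 0) (mul_zero r)⟩
      have hd' : d' ∣ N := (Dvd.intro_left r rfl).trans hd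
      rw [(hw d' (r * d') hd' hd (mul_comm r d')).2, inc_jBar, inc_jBar,
        (hw' d' (r * d') (hd'.trans hNN') (hd.trans hNN') (mul_comm r d')).2]
    · have hcop : Nat.Coprime d r := ((Nat.Prime.coprime_iff_not_dvd hr).2 hrd).symm
      have hd' : d * r ∣ N := Nat.Coprime.mul_dvd_of_dvd_of_dvd hcop hd hrN
      have hd'0 : NeZero (d * r) := ⟨mul_ne_zero (NeZero.ne d) hr.ne_zero⟩
      rw [(hw d (d * r) hd hd' rfl).1, inc_jBar, inc_jBar,
        (hw' d (d * r) (hd.trans hNN') (hd'.trans hNN') rfl).1]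

include hNN' in
theorem relfinrank_pos :
    0 < relfinrank (modularFunctionFieldBar N) (modularFunctionFieldBar N') := by
  have h := psi_mul_relfinrank hNN'
  have h' := psi_pos N'
  rw [← h] at h'
  exact Nat.pos_of_mul_pos_left h'

/-- norm descent. -/
theorem exists_pow_of_inc (m : ℕ) (v : FF N) (g : FF N') (hg : g ^ m = inc hNN' v) :
    ∃ g' : FF N, g' ^ m =
      v ^ relfinrank (modularFunctionFieldBar N) (modularFunctionFieldBar N') :=
  exists_pow_eq_pow_relfinrank (bar_le hNN') m v g (by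
    have := congrArg Subtype.val hg
    rw [coe_inc] at this
    simpa using this)

end Inc

/-- **Theorem G** (helper22's `F.Stmt_G`) from Theorem G at the levels divisible by an auxiliary
prime. -/
theorem stmt_G_of_GA (hGA : Stmt_GA) (hEx : Stmt_ALExists) (hj : Stmt_AL_j) : F.Stmt_G := by
  intro N _ r hr hrN hr2
  obtain ⟨a, ha, har, hap⟩ : ∃ a : ℕ, (a = 2 ∨ a = 3) ∧ a ≠ r ∧ a.Prime := by
    by_cases h2 : r = 2
    · exact ⟨3, Or.inr rfl, by omega, Nat.prime_three⟩
    · exact ⟨2, Or.inl rfl, fun h => h2 h.symm, Nat.prime_two⟩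
  have : NeZero (N.lcm a) := ⟨Nat.lcm_ne_zero (NeZero.ne N) hap.ne_zero⟩
  have hNN' : N ∣ N.lcm a := Nat.dvd_lcm_left N a
  have hrN' : r ∣ N.lcm a := hrN.trans hNN'
  have hr2' : ¬ r ^ 2 ∣ N.lcm a := by
    intro h
    have h1 : r ^ 2 ∣ N * a := h.trans (Nat.lcm_dvd_mul N a)
    have hcop : Nat.Coprime (r ^ 2) a :=
      Nat.Coprime.pow_left 2 ((Nat.coprime_primes hr hap).2 (Ne.symm har))
    exact hr2 (hcop.dvd_of_dvd_mul_right h1)
  obtain ⟨X'⟩ := hEx (N.lcm a) r hr hrN' hr2'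
  have hw' : IsAL (N.lcm a) r X'.w := hj (N.lcm a) r X'
  refine ⟨_, relfinrank_pos hNN', fun w hw A hA m hm u hdiv hcong hclass => ?_⟩
  have hclass' : ClassCong (N.lcm a) m A (X'.w (inc hNN' u)) := by
    obtain ⟨f, hf, hc⟩ := hclass
    refine ⟨inc hNN' f, (map_ne_zero _).2 hf, ?_⟩
    rw [← inc_al hNN' hr hrN hw hw', ← map_pow, ← map_mul]
    exact congOne_inc hNN' hc
  obtain ⟨h1, h2⟩ := hGA (N.lcm a) r a hr hrN' hr2' ha har (Nat.dvd_lcm_right N a) X'.w hw' A hA m hm
    (inc hNN' u) (isDiv_inc hNN' hdiv) (congOne_inc hNN' hcong) hclass'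
  constructor
  · intro τ hτ
    obtain ⟨g, hg⟩ := h1 τ hτ
    exact exists_pow_of_inc hNN' m _ g (by rw [hg, gal_inc, map_mul, map_inv₀])
  · intro σ hσ
    obtain ⟨g, hg⟩ := h2 σ hσ
    exact exists_pow_of_inc hNN' m _ g (by
      rw [hg, gal_inc, gal_inc, map_mul, map_inv₀, map_pow])

end Fermat.Agent.BR
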