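import Fermat.Agent.BR.GlueF
import Fermat.Agent.BR.F.Final
import Fermat.Agent.BR.Inst.All
import Fermat.Agent.BR.Inst.TCData
import Fermat.Agent.FD.Main

/-!
# BR / GLUE : the final assembly

`Final.stmt_G : F.Stmt_G` (Theorem G), `Final.stmt_ES_BR : F.Stmt_ES_BR`, unconditional.
(helper20)
-/

set_option autoImplicit false
set_option synthInstance.maxHeartbeats 400000

namespace Fermat.Agent.BR.Final

/-- the two copies data. -/
theorem stmt_TCData : Inst.Stmt_TCData :=
  Inst.stmt_TCData Inst.stmt_Levels Inst.stmt_ALProps Inst.stmt_RedV Inst.stmt_RedLevel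
    Inst.stmt_LKf Inst.stmt_FrobKf

/-- **Theorem G.** -/
theorem stmt_G : F.Stmt_G := Inst.G_of_TCData stmt_TCData

/-- **OUTPUT 1** of [F]. -/
theorem stmt_ES_BR : F.Stmt_ES_BR := F.FIN.es_br_of_G stmt_G

end Fermat.Agent.BR.Final
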