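import Fermat.Agent.ES.RepAdic
import Fermat.Agent.ES.RepS30
import Fermat.Agent.ES.S31.Sides

/-!
# BR / GLUE : the (REP) package with the trace function exported

`exists_galoisRepAdic_t` is `ES.Rep.exists_galoisRepAdic` (helper85) with a stronger conclusion:
the function `t` with `ρ g ^ 2 - t g ρ g + ε g = 0` on the given module and
`charpoly (r g) = X ^ 2 - t g X + ε g` for ALL `g` is exported.
`exists_rep_t_of_ESModule` is the corresponding version of `ES.Rep.exists_rep_of_ESModule`.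
-/

set_option autoImplicit false
set_option linter.style.haveILetI false

namespace Fermat.Agent.BR

open Fermat.Agent.ES.Rep Fermat.Agent.ES.Rep23 Fermat.Agent.ES.RepGalois Polynomial TensorProduct

local notation "Qb" => AlgebraicClosure ℚ

section

variable (p : ℕ) [Fact p.Prime]
  {𝒪 : Type} [CommRing 𝒪] [IsDomain 𝒪] [IsDiscreteValuationRing 𝒪] [CharZero 𝒪]

theorem exists_galoisRepAdic_t (hFD : Fermat.Agent.FD.Stmt_FD)
    (hp : (p : 𝒪) ∈ IsLocalRing.maximalIdeal 𝒪) (φ : ℤ_[p] →+* 𝒪)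
    (M : Type) [AddCommGroup M] [Module 𝒪 M] [Module.Free 𝒪 M] [Module.Finite 𝒪 M] [Nontrivial M]
    (ρ : GQ →* Module.End 𝒪 M)
    (hcont : ∀ n : ℕ, ∃ L : IntermediateField ℚ Qb, FiniteDimensional ℚ L ∧
      ∀ σ : GQ, (∀ x ∈ L, σ x = x) →
        ∀ v : M, ρ σ v - v ∈ (IsLocalRing.maximalIdeal 𝒪 ^ n) • (⊤ : Submodule 𝒪 M))
    (S : Finset ℕ) (hpS : p ∈ S) (a : ℕ → 𝒪)
    (hES : ∀ ℓ : ℕ, ℓ.Prime → ℓ ∉ S → ∀ A : ValuationSubring Qb, A.LiesOverPrime ℓ →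
      ∀ σ : GQ, A.IsFrobeniusAt σ ℓ →
        ρ σ * ρ σ - a ℓ • ρ σ + (ℓ : 𝒪) • (1 : Module.End 𝒪 M) = 0) :
    ∃ (r : GaloisRepAdic 𝒪) (t : GQ → 𝒪),
      (∀ g : GQ, ρ g * ρ g - t g • ρ g + epsO p φ g • (1 : Module.End 𝒪 M) = 0) ∧
      (∀ g : GQ, LinearMap.charpoly (r.ρ g) = X ^ 2 - C (t g) * X + C (epsO p φ g)) := by
  classical
  set 𝔪 := IsLocalRing.maximalIdeal 𝒪 with h𝔪
  set ε : GQ →* 𝒪 := epsO p φ with hε
  have hKrull : ⨅ n : ℕ, 𝔪 ^ n = ⊥ :=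
    Ideal.iInf_pow_eq_bot_of_isLocalRing 𝔪 (Ideal.IsPrime.ne_top inferInstance)
  have hεfrob : ∀ ℓ : ℕ, ℓ.Prime → ℓ ∉ S → ∀ A : ValuationSubring Qb, A.LiesOverPrime ℓ →
      ∀ σ : GQ, A.IsFrobeniusAt σ ℓ → ε σ = (ℓ : 𝒪) := by
    intro ℓ hℓ hℓS A hA σ hσ
    have hℓp : ℓ ≠ p := fun h => hℓS (h ▸ hpS)
    rw [hε, epsO_apply, eps_frob p hℓ hℓp hA hσ, map_natCast]
  -- common level
  have hlevel : ∀ n : ℕ, ∃ L : IntermediateField ℚ Qb, FiniteDimensional ℚ L ∧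
      (∀ σ : GQ, (∀ x ∈ L, σ x = x) → ∀ v : M, ρ σ v - v ∈ (𝔪 ^ n) • (⊤ : Submodule 𝒪 M)) ∧
      (∀ g h : GQ, (∀ x ∈ L, g x = h x) → ε g - ε h ∈ 𝔪 ^ n) := by
    intro n
    obtain ⟨L1, hL1, h1⟩ := hcont n
    obtain ⟨L2, hL2, h2⟩ := eps_level' p n
    refine ⟨L1 ⊔ L2, IntermediateField.finiteDimensional_sup L1 L2, ?_, ?_⟩
    · intro σ hσ
      exact h1 σ fun x hx => hσ x ((le_sup_left : L1 ≤ L1 ⊔ L2) hx)
    · intro g h hgh
      have := h2 g h fun x hx => hgh x ((le_sup_right : L2 ≤ L1 ⊔ L2) hx)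
      rw [hε, epsO_apply, epsO_apply, ← map_sub]
      exact map_span_pow_le p φ hp n this
  -- density
  have hd : ∀ (g : GQ) (n : ℕ), ∃ (h : GQ) (s : 𝒪),
      ρ h * ρ h - s • ρ h + ε h • (1 : Module.End 𝒪 M) = 0 ∧
      (∀ v, ρ g v - ρ h v ∈ (𝔪 ^ n) • (⊤ : Submodule 𝒪 M)) ∧ ε g - ε h ∈ 𝔪 ^ n := by
    intro g n
    obtain ⟨L, hL, h1, h2⟩ := hlevel n
    obtain ⟨L', hL', hL'n, hLL'⟩ := exists_normal_ge L hL
    obtain ⟨ℓ, A, σ, k, -, hℓ, hℓS, hA, hσ, hgk, -⟩ := @hFD L' hL' hL'n g S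
    obtain ⟨s, hs⟩ := exists_quad_pow (hES ℓ hℓ hℓS A hA σ hσ) k
    refine ⟨σ ^ k, s, ?_, ?_, ?_⟩
    · rw [map_pow, map_pow, hεfrob ℓ hℓ hℓS A hA σ hσ]
      exact hs
    · intro v
      have hfix : ∀ x ∈ L, ((σ ^ k)⁻¹ * g) x = x := by
        intro x hx
        rw [AlgEquiv.mul_apply, hgk x (hLL' hx)]
        exact (σ ^ k).symm_apply_apply x
      have h3 := h1 _ hfix v
      have h4 : ρ g v - ρ (σ ^ k) v = ρ (σ ^ k) (ρ ((σ ^ k)⁻¹ * g) v - v) := by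
        rw [map_sub, ← Module.End.mul_apply, ← map_mul, mul_inv_cancel_left]
      rw [h4]
      exact map_mem_smul_top _ _ h3
    · exact h2 g (σ ^ k) fun x hx => hgk x (hLL' hx)
  obtain ⟨t, ht⟩ := quadRel_of_dense ρ ε 𝔪 hKrull hd
  obtain ⟨c, hcc, -, -, hcε⟩ := exists_conj_eps
  have hcase : IsAlgClosed (FractionRing 𝒪) ∨
      ((2 : FractionRing 𝒪) ≠ 0 ∧ ∃ c, ρ c * ρ c = 1 ∧ ε c = -1) := by
    refine Or.inr ⟨two_ne_zero, c, ?_, ?_⟩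
    · rw [← map_mul, hcc, map_one]
    · rw [hε, epsO_apply, hcε p]
      simp
  obtain ⟨ρ₂, hchar, hctrl⟩ := exists_rep_two_module (FractionRing 𝒪) ρ ε t ht hcase
  have hcont₂ : ∀ n : ℕ, ∃ L : IntermediateField ℚ (AlgebraicClosure ℚ), FiniteDimensional ℚ L ∧
      ∀ σ : GQ, (∀ x ∈ L, σ x = x) → ∀ i j, (ρ₂ σ - 1) i j ∈ IsLocalRing.maximalIdeal 𝒪 ^ n := by
    intro n
    obtain ⟨L, hL, h1, h2⟩ := hlevel n
    refine ⟨L, hL, fun σ hσ => hctrl _ σ (h1 σ hσ) ?_⟩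
    have := h2 σ 1 (fun x hx => by rw [hσ x hx]; rfl)
    rwa [map_one] at this
  refine ⟨adicOfMatrix ρ₂ hcont₂, t, ht, ?_⟩
  intro g
  rw [charpoly_adicOfMatrix, hchar]

end

section Eigen

theorem pow_apply_eigen {A V : Type*} [CommRing A] [AddCommGroup V] [Module A V]
    (f : Module.End A V) (μ : A) (v : V) (h : f v = μ • v) (n : ℕ) : (f ^ n) v = μ ^ n • v := by
  induction n with
  | zero => simp
  | succ n ih => rw [pow_succ, Module.End.mul_apply, h, map_smul, ih, smul_smul, pow_succ, mul_comm]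

theorem aeval_apply_eigen {R A V : Type*} [CommRing R] [CommRing A] [Algebra R A]
    [AddCommGroup V] [Module A V] [Module R V] [IsScalarTower R A V]
    (f : Module.End A V) (μ : A) (v : V) (h : f v = μ • v)
    (F : R[X]) : (aeval f F) v = (F.map (algebraMap R A)).eval μ • v := by
  induction F using Polynomial.induction_on' with
  | add F G hF hG =>
    rw [map_add, LinearMap.add_apply, hF, hG, Polynomial.map_add, Polynomial.eval_add, add_smul]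
  | monomial n a =>
    rw [aeval_monomial, Module.End.mul_apply, pow_apply_eigen f μ v h, Polynomial.map_monomial,
      Polynomial.eval_monomial, Module.algebraMap_end_apply, ← algebraMap_smul A a, smul_smul]

theorem quad_apply {R M G : Type*} [CommRing R] [AddCommGroup M] [Module R M] [Group G]
    (ρ : G →* Module.End R M) (t e : R) (g : G)
    (h : ρ g * ρ g - t • ρ g + e • (1 : Module.End R M) = 0) (v : M) :
    ρ g v + e • ρ g⁻¹ v = t • v := by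
  have h2 := congrArg (fun f : Module.End R M => f (ρ g⁻¹ v)) h
  simp only [LinearMap.add_apply, LinearMap.sub_apply, Module.End.mul_apply,
    LinearMap.smul_apply, Module.End.one_apply, LinearMap.zero_apply] at h2
  have hinv : ρ g (ρ g⁻¹ v) = v := by
    rw [← Module.End.mul_apply, ← map_mul, mul_inv_cancel, map_one, Module.End.one_apply]
  rw [hinv] at h2
  rw [← sub_eq_zero, ← h2]
  abel

end Eigen

section Main

open Fermat.Agent.ES.S31 (tauE)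

theorem exists_rep_t_of_ESModule (hFD : Fermat.Agent.FD.Stmt_FD)
    (p : ℕ) [Fact p.Prime] (N : ℕ) [NeZero N] (S : Finset ℕ)
    (hpS : p ∈ S) (hNS : ∀ q : ℕ, q.Prime → q ∣ N → q ∈ S)
    (E : ESModule p N (↑S : Set ℕ))
    (𝒪' : Type) [CommRing 𝒪'] [IsDomain 𝒪'] [IsDiscreteValuationRing 𝒪']
    [IsAdicComplete (IsLocalRing.maximalIdeal 𝒪') 𝒪'] [CharZero 𝒪']
    (hp : (p : 𝒪') ∈ IsLocalRing.maximalIdeal 𝒪')
    (χ : CuspForm.heckeAlgebra N 2 (↑S : Set ℕ) →+* 𝒪') :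
    ∃ (r : GaloisRepAdic 𝒪') (t : GQ → 𝒪'),
      (∀ g : GQ, LinearMap.charpoly (r.ρ g) = X ^ 2 - C (t g) * X +
        C (padicToComplete p (IsLocalRing.maximalIdeal 𝒪') hp ((eps p g : ℤ_[p]ˣ) : ℤ_[p]))) ∧
      (∀ (g : GQ) (x y : CuspForm.heckeAlgebra N 2 (↑S : Set ℕ)) (F : ℤ_[p][X]),
        aeval (tauE E.ρ (eps p) g) F * E.ΘΛ x = E.ΘΛ y →
          (F.map (padicToComplete p (IsLocalRing.maximalIdeal 𝒪') hp)).eval (t g) * χ x = χ y) := by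
  classical
  let φ : ℤ_[p] →+* 𝒪' := padicToComplete p (IsLocalRing.maximalIdeal 𝒪') hp
  letI : Algebra ℤ_[p] 𝒪' := φ.toAlgebra
  haveI : Module.Free ℤ_[p] E.Λ := E.isBaseChange.free
  haveI : Module.Finite ℤ_[p] E.Λ := Module.Finite.equiv E.isBaseChange.equiv
  let bc : Module.End ℤ_[p] E.Λ →ₐ[ℤ_[p]] Module.End 𝒪' (𝒪' ⊗[ℤ_[p]] E.Λ) :=
    Module.End.baseChangeHom ℤ_[p] 𝒪' E.Λ
  have hbc : ∀ (f : Module.End ℤ_[p] E.Λ) (a : 𝒪') (v : E.Λ), bc f (a ⊗ₜ v) = a ⊗ₜ f v :=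
    fun f a v => LinearMap.baseChange_tmul f a v
  let ΘV : CuspForm.heckeAlgebra N 2 (↑S : Set ℕ) →+* Module.End 𝒪' (𝒪' ⊗[ℤ_[p]] E.Λ) :=
    (bc : Module.End ℤ_[p] E.Λ →+* Module.End 𝒪' (𝒪' ⊗[ℤ_[p]] E.Λ)).comp E.ΘΛ
  let ρV : GQ →* Module.End 𝒪' (𝒪' ⊗[ℤ_[p]] E.Λ) :=
    (bc : Module.End ℤ_[p] E.Λ →* Module.End 𝒪' (𝒪' ⊗[ℤ_[p]] E.Λ)).comp E.ρ
  have hΘV : ∀ x, ΘV x = bc (E.ΘΛ x) := fun x => rfl
  have hρV : ∀ σ, ρV σ = bc (E.ρ σ) := fun σ => rfl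
  let j : E.H →ₗ[ℤ] 𝒪' ⊗[ℤ_[p]] E.Λ :=
    ((TensorProduct.mk ℤ_[p] 𝒪' E.Λ 1).restrictScalars ℤ).comp E.ι
  have hj : IsBaseChange 𝒪' j :=
    IsBaseChange.comp E.isBaseChange (TensorProduct.isBaseChange ℤ_[p] E.Λ 𝒪')
  obtain ⟨v0, hv0, hv0e⟩ := exists_eigenvector_baseChange E.Θ E.Θ_injective j hj ΘV
    (by
      intro x h
      change bc (E.ΘΛ x) ((1 : 𝒪') ⊗ₜ E.ι h) = (1 : 𝒪') ⊗ₜ E.ι (E.Θ x h)
      rw [hbc, E.ΘΛ_ι]) χ
  let W : Submodule 𝒪' (𝒪' ⊗[ℤ_[p]] E.Λ) := eigenSub (fun x => ΘV x) (fun x => χ x)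
  have hst : ∀ g, ∀ x ∈ W, ρV g x ∈ W := by
    intro g x hx
    apply eigenSub_stable (ρV g) _ hx
    intro y
    rw [hρV, hΘV, ← map_mul, ← map_mul, E.comm]
  have hsat : ∀ a : 𝒪', a ≠ 0 → ∀ x, a • x ∈ W → x ∈ W := fun a ha x hx =>
    eigenSub_saturated a ha x hx
  haveI : Nontrivial W :=
    ⟨⟨⟨v0, mem_eigenSub.2 hv0e⟩, 0, fun h => hv0 (congrArg Subtype.val h)⟩⟩
  haveI : Module.Free 𝒪' (𝒪' ⊗[ℤ_[p]] E.Λ) := inferInstance
  haveI : Module.Finite 𝒪' (𝒪' ⊗[ℤ_[p]] E.Λ) := inferInstance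
  haveI : Module.Free 𝒪' W := free_sub W
  haveI : Module.Finite 𝒪' W := finite_sub W
  let a : ℕ → 𝒪' := fun ℓ =>
    if h : ℓ.Prime ∧ ¬ ℓ ∣ N ∧ ℓ ∉ (↑S : Set ℕ) then χ (CuspForm.heckeAlgebra.T h.1 h.2.1 h.2.2)
    else 0
  have hcontV : ∀ n : ℕ, ∃ L : IntermediateField ℚ Qb, FiniteDimensional ℚ L ∧
      ∀ σ : GQ, (∀ x ∈ L, σ x = x) → ∀ v : 𝒪' ⊗[ℤ_[p]] E.Λ, ρV σ v - v ∈
        (IsLocalRing.maximalIdeal 𝒪' ^ n) • (⊤ : Submodule 𝒪' (𝒪' ⊗[ℤ_[p]] E.Λ)) := by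
    intro n
    obtain ⟨L, hL, h⟩ := E.continuous n
    refine ⟨L, hL, fun σ hσ v => ?_⟩
    induction v using TensorProduct.induction_on with
    | zero => simp
    | tmul b v =>
      obtain ⟨w, hw⟩ := h σ hσ v
      rw [hρV, hbc, ← TensorProduct.tmul_sub, hw, TensorProduct.tmul_smul,
        ← algebraMap_smul 𝒪' ((p : ℤ_[p]) ^ n), map_pow, map_natCast]
      exact Submodule.smul_mem_smul (Ideal.pow_mem_pow hp n) Submodule.mem_top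
    | add x y hx hy =>
      rw [map_add, add_sub_add_comm]
      exact Submodule.add_mem _ hx hy
  obtain ⟨r, t, ht, hr⟩ := exists_galoisRepAdic_t p hFD hp φ W (ES.Rep.restr ρV W hst)
    (by
      intro n
      obtain ⟨L, hL, h⟩ := hcontV n
      exact ⟨L, hL, fun σ hσ v => restr_sub_mem W hst hsat _ σ (h σ hσ) v⟩)
    S hpS a
    (by
      intro ℓ hℓ hℓS A hA σ hσ
      have hℓN : ¬ ℓ ∣ N := fun h => hℓS (hNS ℓ hℓ h)
      have hℓS' : ℓ ∉ (↑S : Set ℕ) := by simpa using hℓS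
      have hℓp : ℓ ≠ p := fun h => hℓS (h ▸ hpS)
      have haℓ : a ℓ = χ (CuspForm.heckeAlgebra.T hℓ hℓN hℓS') := dif_pos ⟨hℓ, hℓN, hℓS'⟩
      have h1 := congrArg bc (E.eichlerShimura ℓ hℓ hℓN hℓS' hℓp A hA σ hσ)
      rw [map_add, map_sub, map_mul, map_mul, natCast_smul_one, map_natCast, map_zero,
        ← hρV, ← hΘV] at h1
      ext w
      have h2 := congrArg (fun f : Module.End 𝒪' (𝒪' ⊗[ℤ_[p]] E.Λ) => f (w : 𝒪' ⊗[ℤ_[p]] E.Λ)) h1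
      have h3 : ΘV (CuspForm.heckeAlgebra.T hℓ hℓN hℓS') (ρV σ w) =
          χ (CuspForm.heckeAlgebra.T hℓ hℓN hℓS') • ρV σ w :=
        mem_eigenSub.1 (hst σ w w.2) _
      simp only [LinearMap.add_apply, LinearMap.sub_apply, Module.End.mul_apply, h3,
        LinearMap.zero_apply] at h2
      rw [haℓ]
      simp only [LinearMap.add_apply, LinearMap.sub_apply, Module.End.mul_apply,
        LinearMap.smul_apply, Module.End.one_apply, LinearMap.zero_apply, Submodule.coe_add,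
        Submodule.coe_sub, Submodule.coe_smul, ES.Rep.restr_apply, Submodule.coe_zero]
      rw [← h2]
      congr 1
      rw [Nat.cast_smul_eq_nsmul]
      simp)
  refine ⟨r, t, hr, ?_⟩
  intro g x y F hF
  -- `tauE g` acts on `v0` as `t g`
  have hv0W : v0 ∈ W := mem_eigenSub.2 hv0e
  have h2 := congrArg (Subtype.val : W → 𝒪' ⊗[ℤ_[p]] E.Λ)
    (quad_apply (ES.Rep.restr ρV W hst) (t g) (epsO p φ g) g (ht g) ⟨v0, hv0W⟩)
  rw [Submodule.coe_add, Submodule.coe_smul, Submodule.coe_smul, ES.Rep.restr_apply,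
    ES.Rep.restr_apply] at h2
  have h3 : bc (tauE E.ρ (eps p) g) v0 = t g • v0 := by
    unfold Fermat.Agent.ES.S31.tauE
    rw [map_add, map_smul, LinearMap.add_apply, LinearMap.smul_apply, ← hρV, ← hρV,
      ← algebraMap_smul 𝒪' ((eps p g : ℤ_[p]ˣ) : ℤ_[p])]
    have h4 : algebraMap ℤ_[p] 𝒪' ((eps p g : ℤ_[p]ˣ) : ℤ_[p]) = epsO p φ g := rfl
    rw [h4]
    exact h2
  have h5 := congrArg (fun f : Module.End ℤ_[p] E.Λ => bc f v0) hF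
  simp only [map_mul, Module.End.mul_apply] at h5
  rw [← hΘV, ← hΘV, hv0e, hv0e, map_smul, ← Polynomial.aeval_algHom_apply,
    aeval_apply_eigen _ _ _ h3, smul_smul] at h5
  rw [mul_comm]
  exact smul_left_injective 𝒪' hv0 h5

end Main

end Fermat.Agent.BR
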