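import Fermat.Agent.BR.S34Glue
import Fermat.Agent.BR.S35Glue
import Fermat.Agent.BR.F.Interface

/-!
# BR / GLUE : `S34` and `S35` from the outputs of package [F] (helper22's `BR/F/Interface.lean`)

* `stmt_AbsFrob : F.Stmt_AbsFrob`  (L0)
* `S34_of_F : FD.Stmt_FD → F.Stmt_ES_BR → (frozen S34)`
* `S35_of_F : FD.Stmt_FD → F.Stmt_ES_BR → F.Stmt_New → (frozen S35)`
-/

set_option autoImplicit false

namespace Fermat.Agent.BR

open Fermat.Agent.ES.Rep Fermat.Agent.ES.RepGalois Polynomial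
open Fermat.Agent.ES.S31 (tauE)

section Algebra

variable {R Λ : Type*} [CommRing R] [AddCommGroup Λ] [Module R Λ]

/-- `quartic_of_frobBad` with a general scalar `r` instead of a natural number. -/
theorem quartic_gen (Fr Fi U w X₀ : Module.End R Λ) (q : R)
    (h1 : Fr * Fi = 1) (h2 : Fi * Fr = 1) (hU : U * Fr = Fr * U) (hw : w * Fr = Fr * w)
    (hwX : w * X₀ = X₀ * w) (hFX : Fr * X₀ = X₀ * Fr) (hUU : (U * U - 1) * X₀ = 0)
    (K : AddSubgroup Λ) (hK : ∀ z ∈ K, q ^ 2 • z ∈ K) (hF2 : ∀ v, Fr v - U v ∈ K)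
    (hG2 : ∀ z ∈ K, w z ∈ K → Fr (Fr z) = q ^ 2 • z) :
    ((Fr + q • Fi) * (Fr + q • Fi) - ((1 + q) ^ 2) • 1) *
      ((Fr + q • Fi) * (Fr + q • Fi) - ((1 + q) ^ 2) • 1) * X₀ = 0 := by
  set D : Module.End R Λ :=
    (Fr + q • Fi) * (Fr + q • Fi) - ((1 + q) ^ 2) • 1 with hD
  have hD' : D = (Fr * Fr - 1) + (q ^ 2) • (Fi * Fi - 1) := by
    rw [hD]
    simp only [add_mul, mul_add, smul_mul_assoc, mul_smul_comm, h1, h2]
    module
  have hFiX : Fi * X₀ = X₀ * Fi := by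
    calc Fi * X₀ = Fi * X₀ * (Fr * Fi) := by rw [h1, mul_one]
      _ = Fi * (X₀ * Fr) * Fi := by simp only [mul_assoc]
      _ = Fi * (Fr * X₀) * Fi := by rw [hFX]
      _ = (Fi * Fr) * X₀ * Fi := by simp only [mul_assoc]
      _ = X₀ * Fi := by rw [h2, one_mul]
  have hwFi : w * Fi = Fi * w := by
    calc w * Fi = (Fi * Fr) * w * Fi := by rw [h2, one_mul]
      _ = Fi * (Fr * w) * Fi := by simp only [mul_assoc]
      _ = Fi * (w * Fr) * Fi := by rw [hw]
      _ = Fi * w * (Fr * Fi) := by simp only [mul_assoc]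
      _ = Fi * w := by rw [h1, mul_one]
  have hwD : w * D = D * w := by
    have a1 : w * (Fr * Fr) = Fr * Fr * w := by
      rw [← mul_assoc, hw, mul_assoc, hw, mul_assoc]
    have a2 : w * (Fi * Fi) = Fi * Fi * w := by
      rw [← mul_assoc, hwFi, mul_assoc, hwFi, mul_assoc]
    rw [hD', mul_add, add_mul, mul_sub, sub_mul, mul_smul_comm, smul_mul_assoc, mul_sub, sub_mul,
      mul_one, one_mul, a1, a2]
  have c1 : ∀ v, Fr (Fr (X₀ v)) - X₀ v ∈ K := by
    intro v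
    have e1 := hF2 (Fr (X₀ v))
    have e2 := hF2 (U (X₀ v))
    have e3 : U (Fr (X₀ v)) = Fr (U (X₀ v)) := by
      rw [← Module.End.mul_apply, hU, Module.End.mul_apply]
    have e4 : U (U (X₀ v)) = X₀ v := by
      have := LinearMap.congr_fun hUU v
      simp only [Module.End.mul_apply, LinearMap.sub_apply, Module.End.one_apply,
        LinearMap.zero_apply] at this
      exact sub_eq_zero.1 this
    have : Fr (Fr (X₀ v)) - X₀ v =
        (Fr (Fr (X₀ v)) - U (Fr (X₀ v))) + (Fr (U (X₀ v)) - U (U (X₀ v))) := by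
      rw [e3, e4]; abel
    rw [this]
    exact K.add_mem e1 e2
  have c2 : ∀ v, D (X₀ v) ∈ K := by
    intro v
    have e1 := c1 v
    have e2 := c1 (Fi (Fi v))
    have e3 : X₀ (Fi (Fi v)) = Fi (Fi (X₀ v)) := by
      rw [← Module.End.mul_apply, ← hFiX, Module.End.mul_apply, ← Module.End.mul_apply X₀, ← hFiX,
        Module.End.mul_apply]
    have e4 : ∀ u, Fr (Fi u) = u := fun u => by
      rw [← Module.End.mul_apply, h1, Module.End.one_apply]
    rw [e3, e4, e4] at e2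
    have : D (X₀ v) = (Fr (Fr (X₀ v)) - X₀ v) - q ^ 2 • (X₀ v - Fi (Fi (X₀ v))) := by
      rw [hD']
      simp only [LinearMap.add_apply, LinearMap.sub_apply, Module.End.mul_apply,
        LinearMap.smul_apply, Module.End.one_apply]
      module
    rw [this]
    exact K.sub_mem e1 (hK _ e2)
  have c3 : ∀ v, w (D (X₀ v)) ∈ K := by
    intro v
    have : w (D (X₀ v)) = D (X₀ (w v)) := by
      rw [← Module.End.mul_apply, hwD, Module.End.mul_apply, ← Module.End.mul_apply w, hwX,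
        Module.End.mul_apply]
    rw [this]
    exact c2 _
  refine LinearMap.ext fun v => ?_
  rw [Module.End.mul_apply, Module.End.mul_apply, LinearMap.zero_apply]
  set z := D (X₀ v) with hz
  have e1 := hG2 z (c2 v) (c3 v)
  have e2 : q ^ 2 • Fi (Fi z) = z := by
    rw [← map_smul, ← map_smul, ← e1, ← Module.End.mul_apply Fi Fr, h2, Module.End.one_apply,
      ← Module.End.mul_apply Fi Fr, h2, Module.End.one_apply]
  rw [hD']
  simp only [LinearMap.add_apply, LinearMap.sub_apply, Module.End.mul_apply,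
    LinearMap.smul_apply, Module.End.one_apply]
  rw [e1, smul_sub, e2]
  abel

end Algebra

/-- (L0) of helper22's interface. -/
theorem stmt_AbsFrob : F.Stmt_AbsFrob := by
  intro R _ _ Λ _ _ _ s s' n w x r L _ h1 h2 hns _ _ hws _ hwx hxs _ _ _ hF2 hG2 hnn
  have := quartic_gen s s' n w x r h1 h2 hns.eq hws.eq hwx.eq hxs.eq.symm
    (by rw [sub_mul, one_mul, hnn, sub_self]) L.toAddSubgroup
    (fun z hz => L.smul_mem _ hz)
    (fun v => by
      have h := L.neg_mem (hF2 v)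
      rw [neg_sub] at h
      exact h)
    (fun z hz hwz => by rw [hG2 z hz hwz, pow_two])
  rw [pow_two, pow_two]
  exact this

section S34

variable {p : ℕ} {N : ℕ} [NeZero N] {S : Finset ℕ}
  {𝒪 : Type} [CommRing 𝒪] [IsDomain 𝒪] [IsDiscreteValuationRing 𝒪]
  [IsAdicComplete (IsLocalRing.maximalIdeal 𝒪) 𝒪]
  {θ : CuspForm.heckeAlgebra N 2 (↑S : Set ℕ) →+* IsLocalRing.ResidueField 𝒪}
  {T : Type} [CommRing T] [IsLocalRing T] [IsNoetherianRing T]
  [IsAdicComplete (IsLocalRing.maximalIdeal T) T] [Algebra 𝒪 T] [IsLocalHom (algebraMap 𝒪 T)]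
  [Module.Finite 𝒪 T] [Module.Free 𝒪 T]

theorem stmt_ES34_of_F (h : F.Stmt_ES_BR) : Stmt_ES34 := by
  intro p _ N _ S hpS hNS
  obtain ⟨E, hE, -⟩ := h p N S hpS hNS
  exact ⟨E, fun q hq hqN hq2 hqp P hP σ hσ => hE q hq hqN hq2 hqp P hP σ hσ σ hσ⟩

/-- **S34** from Frobenius density and the output of [F]. -/
theorem S34_of_F (hFD : FD.Stmt_FD) (hES : F.Stmt_ES_BR) (hp : p.Prime)
    (hp𝒪 : (p : 𝒪) ∈ IsLocalRing.maximalIdeal 𝒪) (hpS : p ∈ S)
    (hNS : ∀ q : ℕ, q.Prime → q ∣ N → q ∈ S)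
    (H : CuspForm.HeckeGaloisRepDatum N (↑S : Set ℕ) 𝒪 θ T)
    (q : ℕ) (hq : q.Prime) (hqp : q ≠ p) (hqN : q ∣ N) (hq2 : ¬ q ^ 2 ∣ N) :
    H.ρ.IsUnipotentOnInertiaAt q :=
  S34_of hFD (stmt_ES34_of_F hES) hp hp𝒪 hpS hNS H q hq hqp hqN hq2

end S34

section S35

/-- **S35** from Frobenius density and the outputs of [F]. -/
theorem S35_of_F (hFD : FD.Stmt_FD) (hES : F.Stmt_ES_BR) (hNew : F.Stmt_New)
    {M : ℕ} [NeZero M] {g : CuspForm (CongruenceSubgroup.Gamma0 M) 2} (hg : g.IsNewform)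
    (lam : ℕ) [Fact lam.Prime]
    (S : Finset ℕ)
    (O' : Type) [CommRing O'] [IsDomain O'] [IsDiscreteValuationRing O']
    [IsAdicComplete (IsLocalRing.maximalIdeal O') O'] [Finite (IsLocalRing.ResidueField O')]
    [CharZero O'] (hlamO' : (lam : O') ∈ IsLocalRing.maximalIdeal O')
    (chig : CuspForm.heckeAlgebra M 2 (↑S : Set ℕ) →+* ℂ)
    (hchig : ∀ (ℓ : ℕ) (hℓ : ℓ.Prime) (hℓM : ¬ ℓ ∣ M) (hℓS : ℓ ∉ (↑S : Set ℕ)),
      chig (CuspForm.heckeAlgebra.T hℓ hℓM hℓS) = ModularFormClass.qCoeff g ℓ)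
    (iota : chig.range →+* O')
    (hlamS : lam ∈ S) (hMS : ∀ q : ℕ, q.Prime → q ∣ M → q ∈ S) :
    ∃ (O'' : Type) (_ : CommRing O'') (_ : IsDomain O'') (_ : IsDiscreteValuationRing O'')
      (_ : IsAdicComplete (IsLocalRing.maximalIdeal O'') O'') (_ : Finite (IsLocalRing.ResidueField O''))
      (_ : CharZero O'') (_ : Algebra O' O'') (_ : Module.Finite O' O'') (_ : IsLocalHom (algebraMap O' O'')),
      Function.Injective (algebraMap O' O'') ∧
      ∃ ρ : GaloisRepAdic O'',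
        (∀ (ℓ : ℕ) (hℓ : ℓ.Prime) (hℓM : ¬ ℓ ∣ M) (hℓS : ℓ ∉ (↑S : Set ℕ)),
          ∀ A : ValuationSubring (AlgebraicClosure ℚ), A.LiesOverPrime ℓ →
            ∀ σ : AlgebraicClosure ℚ ≃ₐ[ℚ] AlgebraicClosure ℚ, A.IsFrobeniusAt σ ℓ →
              LinearMap.charpoly (ρ.ρ σ) =
                X ^ 2 - C (algebraMap O' O'' ((iota.comp chig.rangeRestrict) (CuspForm.heckeAlgebra.T hℓ hℓM hℓS))) * X
                  + C ((ℓ : O''))) ∧
        (∀ q : ℕ, q.Prime → q ≠ lam → q ∣ M → ¬ q ^ 2 ∣ M →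
          ∀ A : ValuationSubring (AlgebraicClosure ℚ), A.LiesOverPrime q →
            ∀ σ : AlgebraicClosure ℚ ≃ₐ[ℚ] AlgebraicClosure ℚ, A.IsFrobeniusAt σ q →
              LinearMap.charpoly (ρ.ρ σ) = X ^ 2 - C ((q : O'') + 1) * X + C ((q : O'')) ∨
              LinearMap.charpoly (ρ.ρ σ) = X ^ 2 + C ((q : O'') + 1) * X + C ((q : O''))) := by
  obtain ⟨E, -, hE⟩ := hES lam M S hlamS hMS
  set χ : CuspForm.heckeAlgebra M 2 (↑S : Set ℕ) →+* O' := iota.comp chig.rangeRestrict with hχ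
  obtain ⟨r, t, hr, hTP⟩ := exists_rep_t_of_ESModule hFD lam M S hlamS hMS E O' hlamO' χ
  set φ := padicToComplete lam (IsLocalRing.maximalIdeal O') hlamO' with hφ
  have good : ∀ (ℓ : ℕ) (hℓ : ℓ.Prime) (hℓM : ¬ ℓ ∣ M) (hℓS : ℓ ∉ (↑S : Set ℕ)),
      ∀ A : ValuationSubring (AlgebraicClosure ℚ), A.LiesOverPrime ℓ →
        ∀ σ : AlgebraicClosure ℚ ≃ₐ[ℚ] AlgebraicClosure ℚ, A.IsFrobeniusAt σ ℓ →
          LinearMap.charpoly (r.ρ σ) =
            X ^ 2 - C (χ (CuspForm.heckeAlgebra.T hℓ hℓM hℓS)) * X + C ((ℓ : O')) := by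
    intro ℓ hℓ hℓM hℓS A hA σ hσ
    have hℓp : ℓ ≠ lam := fun h => hℓS (by rw [h]; exact_mod_cast hlamS)
    have h1 := Fermat.Agent.ES.S31.theta_lucas_eq_tauE E.ρ (eps lam) E.ΘΛ σ
      (CuspForm.heckeAlgebra.T hℓ hℓM hℓS) ℓ (eps_frob lam hℓ hℓp hA hσ)
      (fun x => E.comm σ x) (E.eichlerShimura ℓ hℓ hℓM hℓS hℓp A hA σ hσ) 1
    rw [Fermat.Agent.ES.S31.lucas_one, pow_one] at h1
    have h2 := hTP σ 1 (CuspForm.heckeAlgebra.T hℓ hℓM hℓS) X (by
      rw [aeval_X, map_one, mul_one, h1])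
    rw [Polynomial.map_X, eval_X, map_one, mul_one] at h2
    rw [hr σ, eps_frob lam hℓ hℓp hA hσ, map_natCast, h2]
  have bad : ∀ q : ℕ, q.Prime → q ≠ lam → q ∣ M → ¬ q ^ 2 ∣ M →
      ∀ A : ValuationSubring (AlgebraicClosure ℚ), A.LiesOverPrime q →
        ∀ σ : AlgebraicClosure ℚ ≃ₐ[ℚ] AlgebraicClosure ℚ, A.IsFrobeniusAt σ q →
          LinearMap.charpoly (r.ρ σ) = X ^ 2 - C ((q : O') + 1) * X + C ((q : O')) ∨
          LinearMap.charpoly (r.ρ σ) = X ^ 2 + C ((q : O') + 1) * X + C ((q : O')) := by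
    intro q hq hqlam hqM hq2 A hA σ hσ
    obtain ⟨x₀, hx₀, hx₀U⟩ := hNew M g hg S hMS chig hchig q hq hqM hq2
    have hquart := hE q hq hqM hq2 hqlam x₀ hx₀U A hA σ hσ
    have hτ : tauE E.ρ (eps lam) σ = E.ρ σ + (q : ℤ_[lam]) • E.ρ σ⁻¹ := by
      unfold Fermat.Agent.ES.S31.tauE
      rw [eps_frob lam hq hqlam hA hσ]
    have h2 := hTP σ x₀ 0 ((X ^ 2 - C ((1 + q : ℤ_[lam]) ^ 2)) ^ 2) (by
      rw [map_zero, ← hquart, hτ]
      congr 1
      rw [map_pow, map_sub, map_pow, aeval_X, aeval_C, Algebra.algebraMap_eq_smul_one])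
    rw [map_zero] at h2
    have hχ0 : χ x₀ ≠ 0 := iota_ne_zero chig iota x₀ hx₀
    have h3 := (mul_eq_zero.1 h2).resolve_right hχ0
    simp only [Polynomial.map_pow, Polynomial.map_sub, Polynomial.map_X,
      eval_pow, eval_sub, eval_X, map_pow, map_add, map_one, map_natCast,
      Polynomial.map_add, Polynomial.map_one, Polynomial.map_natCast, eval_add, eval_one,
      eval_natCast] at h3
    have h4 : (t σ - ((q : O') + 1)) * (t σ + ((q : O') + 1)) = 0 := by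
      have := pow_eq_zero_iff (two_ne_zero) |>.1 h3
      linear_combination this
    rw [hr σ, eps_frob lam hq hqlam hA hσ, map_natCast]
    rcases mul_eq_zero.1 h4 with h5 | h5
    · left
      rw [sub_eq_zero.1 h5]
    · right
      rw [eq_neg_of_add_eq_zero_left h5, C_neg, neg_mul, sub_neg_eq_add]
  exact ⟨O', inferInstance, inferInstance, inferInstance, inferInstance, inferInstance,
    inferInstance, Algebra.id O', Module.Finite.self _, ⟨fun a ha => ha⟩, Function.injective_id,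
    r, good, bad⟩

end S35

end Fermat.Agent.BR
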