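import Mathlib
import Fermat.Agent.ES.RepInterface
import Fermat.Prelude.Def_CuspForm_Newforms

/-!
# BR / GLUE : the contract between the geometric part of BR and the frozen statements S34, S35

(sub-architect: helper20.)  Everything is phrased on helper85's `ESModule p N S`
(`ES/RepInterface.lean`).

* `UnipInertia E`  : `(ρ σ - 1) ^ 2 = 0` for `σ` in an inertia group at `q ‖ N`, `q ≠ p`
  (= consequence (U) of (F1) + (G1) of the route #744).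
* `FrobBad E`      : at `q ‖ N`, `q ≠ p` there are operators `U` (`= U_q`), `w` (`= w_q`) on `Λ`
  and, for every valuation ring `A` over `q`, a subgroup `K` (`= W_∞`) with
  (F2) `ρ σ - U` maps `Λ` into `K`, (G2') `ρ σ ^ 2 = q ^ 2` on `K ∩ w⁻¹ K`,
  for every Frobenius lift `σ` at `A`.
* `Stmt_NewAn`     : (purely analytic) for a newform `g` of level `M`, `q ‖ M`, there is
  `x₀` in the Hecke algebra away from `S` with `χ_g x₀ ≠ 0` and `(U_q ^ 2 - 1) x₀ = 0` on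
  `S₂(Γ₀(M))`.

`S34Glue.lean` : `FD.Stmt_FD → Stmt_ES34 → S34`.
`S35Glue.lean` : `FD.Stmt_FD → Stmt_ES35 → Stmt_NewAn → S35`.
-/

set_option autoImplicit false

namespace Fermat.Agent.BR

open Fermat.Agent.ES.Rep

local notation "Qb" => AlgebraicClosure ℚ

section

variable {p : ℕ} [Fact p.Prime] {N : ℕ} [NeZero N] {S : Set ℕ}

/-- (U): inertia at `q ‖ N`, `q ≠ p` acts unipotently of level two. -/
def UnipInertia (E : ESModule p N S) : Prop :=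
  ∀ q : ℕ, q.Prime → q ∣ N → ¬ q ^ 2 ∣ N → q ≠ p →
    ∀ P : ValuationSubring Qb, P.LiesOverPrime q →
      ∀ σ ∈ P.inertiaSubgroupIn ℚ, (E.ρ σ - 1) * (E.ρ σ - 1) = 0

/-- The structure of the Eichler-Shimura module at a Frobenius lift at `q ‖ N`, `q ≠ p`. -/
def FrobBad (E : ESModule p N S) : Prop :=
  ∀ (q : ℕ) (_hq : q.Prime) (hqN : q ∣ N), ¬ q ^ 2 ∣ N → q ≠ p →
    ∃ U w : Module.End ℤ_[p] E.Λ,
      (∀ σ : GQ, U * E.ρ σ = E.ρ σ * U) ∧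
      (∀ σ : GQ, w * E.ρ σ = E.ρ σ * w) ∧
      (∀ x, w * E.ΘΛ x = E.ΘΛ x * w) ∧
      (∀ x : CuspForm.heckeAlgebra N 2 S,
        (CuspForm.heckeULin 2 hqN * CuspForm.heckeULin 2 hqN - 1) *
          (x : Module.End ℂ (CuspForm (CongruenceSubgroup.Gamma0 N) 2)) = 0 →
        (U * U - 1) * E.ΘΛ x = 0) ∧
      ∀ A : ValuationSubring Qb, A.LiesOverPrime q →
        ∃ K : AddSubgroup E.Λ, ∀ σ : GQ, A.IsFrobeniusAt σ q →
          (∀ v, E.ρ σ v - U v ∈ K) ∧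
          (∀ z ∈ K, w z ∈ K → E.ρ σ (E.ρ σ z) = (q : ℤ_[p]) ^ 2 • z)

end

/-- What BR has to deliver for `S34`. -/
def Stmt_ES34 : Prop :=
  ∀ (p : ℕ) [Fact p.Prime] (N : ℕ) [NeZero N] (S : Finset ℕ),
    p ∈ S → (∀ q : ℕ, q.Prime → q ∣ N → q ∈ S) →
      ∃ E : ESModule p N (↑S : Set ℕ), UnipInertia E

/-- What BR has to deliver for `S35` (geometric part). -/
def Stmt_ES35 : Prop :=
  ∀ (p : ℕ) [Fact p.Prime] (N : ℕ) [NeZero N] (S : Finset ℕ),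
    p ∈ S → (∀ q : ℕ, q.Prime → q ∣ N → q ∈ S) →
      ∃ E : ESModule p N (↑S : Set ℕ), FrobBad E

/-- What BR has to deliver for `S35` (analytic part): `U_q ^ 2 = 1` on the `χ_g`-part. -/
def Stmt_NewAn : Prop :=
  ∀ (M : ℕ) [NeZero M] (g : CuspForm (CongruenceSubgroup.Gamma0 M) 2), g.IsNewform →
    ∀ (S : Finset ℕ), (∀ q : ℕ, q.Prime → q ∣ M → q ∈ S) →
    ∀ (chig : CuspForm.heckeAlgebra M 2 (↑S : Set ℕ) →+* ℂ),
      (∀ (ℓ : ℕ) (hℓ : ℓ.Prime) (hℓM : ¬ ℓ ∣ M) (hℓS : ℓ ∉ (↑S : Set ℕ)),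
        chig (CuspForm.heckeAlgebra.T hℓ hℓM hℓS) = ModularFormClass.qCoeff g ℓ) →
    ∀ (q : ℕ) (_hq : q.Prime) (hqM : q ∣ M), ¬ q ^ 2 ∣ M →
      ∃ x₀ : CuspForm.heckeAlgebra M 2 (↑S : Set ℕ), chig x₀ ≠ 0 ∧
        (CuspForm.heckeULin 2 hqM * CuspForm.heckeULin 2 hqM - 1) *
          (x₀ : Module.End ℂ (CuspForm (CongruenceSubgroup.Gamma0 M) 2)) = 0

end Fermat.Agent.BR
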