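import Fermat.Agent.BR.GlueInterface
import Fermat.Agent.ES.S31.Main
import Fermat.Prelude.Def_GaloisRep_LocalConditions

/-!
# BR / GLUE : `S34` from the contract

`S34_of : FD.Stmt_FD → Stmt_ES34 → (frozen statement S34)`.

* `trace_transfer` : if `ρ g + ε(g) ρ g⁻¹ = ΘΛ x₀` on the Eichler-Shimura module then
  `tr H.ρ g = H.π x₀` (same technique as helper23's S31 glue).
* `det_eq_one` : `det H.ρ g = 1` if `ε(g) = 1`.
-/

set_option autoImplicit false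

namespace Fermat.Agent.BR

open Module Polynomial Fermat.Agent.ES.Rep Fermat.Agent.ES.RepGalois Fermat.Agent.ES.S31

section Det

variable {A : Type*} [CommRing A] {V : Type*} [AddCommGroup V] [Module A V] [Module.Free A V]
  [Module.Finite A V]

theorem det_sub_one_mem (I : Ideal A) (f : Module.End A V)
    (hf : ∀ v, f v - v ∈ I • (⊤ : Submodule A V)) : LinearMap.det f - 1 ∈ I := by
  classical
  let b := Module.Free.chooseBasis A V
  rw [← LinearMap.det_toMatrix b, ← Ideal.Quotient.eq_zero_iff_mem, map_sub, map_one,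
    RingHom.map_det, sub_eq_zero]
  have : (Ideal.Quotient.mk I).mapMatrix (LinearMap.toMatrix b b f) = 1 := by
    ext i j
    rw [RingHom.mapMatrix_apply, Matrix.map_apply, LinearMap.toMatrix_apply]
    have h1 := linearMap_mem_of_mem_smul_top I (b.coord i) (hf (b j))
    rw [map_sub, Basis.coord_apply, Basis.coord_apply, Basis.repr_self,
      ← Ideal.Quotient.eq_zero_iff_mem, map_sub, sub_eq_zero] at h1
    rw [h1, Matrix.one_apply, Finsupp.single_apply]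
    by_cases hij : i = j
    · subst hij; simp
    · rw [if_neg (fun h => hij h.symm), if_neg hij, map_zero]
  rw [this, Matrix.det_one]

variable {G : Type*} [Group G] (ρ : G →* Module.End A V)

theorem det_sub_mem_of_inv_mul (I : Ideal A) {g h : G}
    (hgh : ∀ v, ρ (h⁻¹ * g) v - v ∈ I • (⊤ : Submodule A V)) :
    LinearMap.det (ρ g) - LinearMap.det (ρ h) ∈ I := by
  have h1 : ρ g = ρ h * ρ (h⁻¹ * g) := by rw [← map_mul, mul_inv_cancel_left]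
  have h2 : LinearMap.det (ρ g) - LinearMap.det (ρ h) =
      LinearMap.det (ρ h) * (LinearMap.det (ρ (h⁻¹ * g)) - 1) := by
    rw [h1, map_mul]
    ring
  rw [h2]
  exact I.mul_mem_left _ (det_sub_one_mem I _ hgh)

/-- charpoly of an endomorphism of a free module of rank two. -/
theorem charpoly_eq_of_finrank_two [Nontrivial A] (hV : Module.finrank A V = 2)
    (f : Module.End A V) :
    LinearMap.charpoly f = X ^ 2 - C (LinearMap.trace A V f) * X + C (LinearMap.det f) := by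
  classical
  let b : Basis (Fin 2) A V := Module.finBasisOfFinrankEq A V hV
  rw [← LinearMap.charpoly_toMatrix f b, Matrix.charpoly_fin_two,
    LinearMap.trace_eq_matrix_trace A b, LinearMap.det_toMatrix]

theorem det_of_charpoly [Nontrivial A] (hV : Module.finrank A V = 2) (f : Module.End A V)
    (s e : A) (hf : LinearMap.charpoly f = X ^ 2 - C s * X + C e) : LinearMap.det f = e := by
  rw [charpoly_eq_of_finrank_two hV] at hf
  have := congrArg (fun P => Polynomial.coeff P 0) hf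
  simpa [Polynomial.coeff_X, Polynomial.coeff_C, Polynomial.coeff_X_pow] using this

end Det

variable {p : ℕ} {N : ℕ} [NeZero N] {S : Finset ℕ}
  {𝒪 : Type} [CommRing 𝒪] [IsDomain 𝒪] [IsDiscreteValuationRing 𝒪]
  [IsAdicComplete (IsLocalRing.maximalIdeal 𝒪) 𝒪]
  {θ : CuspForm.heckeAlgebra N 2 (↑S : Set ℕ) →+* IsLocalRing.ResidueField 𝒪}
  {T : Type} [CommRing T] [IsLocalRing T] [IsNoetherianRing T]
  [IsAdicComplete (IsLocalRing.maximalIdeal T) T] [Algebra 𝒪 T] [IsLocalHom (algebraMap 𝒪 T)]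
  [Module.Finite 𝒪 T] [Module.Free 𝒪 T]

/-- The transfer of traces, modulo `𝔪 ^ n`. -/
theorem trace_transfer_mod (hFD : FD.Stmt_FD) [Fact p.Prime] (E : ESModule p N (↑S : Set ℕ))
    (hpT : (p : T) ∈ IsLocalRing.maximalIdeal T) (hpS : p ∈ S)
    (hNS : ∀ q : ℕ, q.Prime → q ∣ N → q ∈ S)
    (H : CuspForm.HeckeGaloisRepDatum N (↑S : Set ℕ) 𝒪 θ T)
    (g : GQ) (x₀ : CuspForm.heckeAlgebra N 2 (↑S : Set ℕ))
    (hg : tauE E.ρ (eps p) g = E.ΘΛ x₀) (n : ℕ) :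
    LinearMap.trace T H.ρ.V (H.ρ.ρ g) - H.π x₀ ∈ IsLocalRing.maximalIdeal T ^ n := by
  have hp : p.Prime := Fact.out
  obtain ⟨c, e, he, hfaith⟩ :=
    exists_quasi_faithful E.isBaseChange E.Θ E.Θ_injective E.ΘΛ E.ΘΛ_ι
  obtain ⟨L₁, hL₁, h₁⟩ := H.ρ.isAdicContinuous n
  obtain ⟨L₂, hL₂, h₂⟩ := E.continuous (n + c)
  obtain ⟨L₃, hL₃, h₃⟩ := eps_level' p (n + c)
  obtain ⟨L, hL, hLn, hLle⟩ := exists_normal_ge (L₁ ⊔ L₂ ⊔ L₃) inferInstance
  have hle₁ : L₁ ≤ L := le_trans (le_trans le_sup_left le_sup_left) hLle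
  have hle₂ : L₂ ≤ L := le_trans (le_trans le_sup_right le_sup_left) hLle
  have hle₃ : L₃ ≤ L := le_trans le_sup_right hLle
  obtain ⟨x₁, hx₁, hx₁'⟩ : ∃ x : CuspForm.heckeAlgebra N 2 (↑S : Set ℕ),
      DivBy (n + c) (tauE E.ρ (eps p) g - E.ΘΛ x) ∧
      LinearMap.trace T H.ρ.V (H.ρ.ρ g) - H.π x ∈ IsLocalRing.maximalIdeal T ^ n := by
    obtain ⟨ℓ, A, σ, k, -, hℓ, hℓS, hA, hσ, hgσ, -⟩ := hFD L g S
    have hℓS' : ℓ ∉ (↑S : Set ℕ) := by simpa using hℓS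
    have hℓN : ¬ ℓ ∣ N := fun h => hℓS (hNS ℓ hℓ h)
    have hℓp : ℓ ≠ p := fun h => hℓS (h ▸ hpS)
    refine ⟨lucas (CuspForm.heckeAlgebra.T hℓ hℓN hℓS') (ℓ : CuspForm.heckeAlgebra N 2 (↑S : Set ℕ)) k,
      ?_, ?_⟩
    · rw [theta_lucas_eq_tauE E.ρ (eps p) E.ΘΛ σ _ ℓ (eps_frob p hℓ hℓp hA hσ)
        (fun x => E.comm σ x) (E.eichlerShimura ℓ hℓ hℓN hℓS' hℓp A hA σ hσ) k]
      refine tauE_congr E.ρ (eps p) (divBy_sub_of_inv_mul E.ρ ?_)
        (h₃ _ _ fun x hx => hgσ x (hle₃ hx))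
      intro v
      obtain ⟨w, hw⟩ := h₂ _ (inv_mul_fixes fun x hx => hgσ x (hle₂ hx)) v
      exact ⟨w, by rw [LinearMap.sub_apply, Module.End.one_apply, hw]⟩
    · rw [map_lucas, map_natCast, ← trace_pow_of_charpoly H.ρ.finrank_eq (H.ρ.ρ σ) _ _
        (H.charpoly_frob ℓ hℓ hℓN hℓS' A hA σ hσ) k, ← map_pow]
      exact trace_sub_mem_of_inv_mul H.ρ.ρ _
        (h₁ _ (inv_mul_fixes fun x hx => hgσ x (hle₁ hx)))
  rw [hg, ← map_sub] at hx₁
  obtain ⟨x', hx'⟩ := hfaith (x₀ - x₁) n hx₁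
  have hπ : H.π (x₀ - x₁) ∈ IsLocalRing.maximalIdeal T ^ n := by
    have h4 := congrArg H.π hx'
    rw [map_zsmul, map_zsmul, zsmul_eq_mul, zsmul_eq_mul] at h4
    have h5 : (e : T) * H.π (x₀ - x₁) ∈ IsLocalRing.maximalIdeal T ^ n := by
      rw [h4]
      refine Ideal.mul_mem_right _ _ ?_
      push_cast
      exact Ideal.pow_mem_pow hpT n
    obtain ⟨u, hu⟩ := isUnit_intCast_of_not_dvd hp hpT he
    have h6 : H.π (x₀ - x₁) = (↑u⁻¹ : T) * ((e : T) * H.π (x₀ - x₁)) := by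
      rw [← mul_assoc, ← hu, Units.inv_mul, one_mul]
    rw [h6]
    exact Ideal.mul_mem_left _ _ h5
  have : LinearMap.trace T H.ρ.V (H.ρ.ρ g) - H.π x₀ =
      (LinearMap.trace T H.ρ.V (H.ρ.ρ g) - H.π x₁) - H.π (x₀ - x₁) := by
    rw [map_sub]; ring
  rw [this]
  exact Ideal.sub_mem _ hx₁' hπ

/-- **The transfer of traces** from the Eichler-Shimura module to a Hecke-Galois datum. -/
theorem trace_transfer (hFD : FD.Stmt_FD) [Fact p.Prime] (E : ESModule p N (↑S : Set ℕ))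
    (hpT : (p : T) ∈ IsLocalRing.maximalIdeal T) (hpS : p ∈ S)
    (hNS : ∀ q : ℕ, q.Prime → q ∣ N → q ∈ S)
    (H : CuspForm.HeckeGaloisRepDatum N (↑S : Set ℕ) 𝒪 θ T)
    (g : GQ) (x₀ : CuspForm.heckeAlgebra N 2 (↑S : Set ℕ))
    (hg : tauE E.ρ (eps p) g = E.ΘΛ x₀) :
    LinearMap.trace T H.ρ.V (H.ρ.ρ g) = H.π x₀ := by
  rw [← sub_eq_zero]
  have hK := Ideal.iInf_pow_eq_bot_of_isLocalRing (IsLocalRing.maximalIdeal T)
    (IsLocalRing.maximalIdeal.isMaximal T).ne_top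
  rw [← Ideal.mem_bot, ← hK, Ideal.mem_iInf]
  intro n
  exact trace_transfer_mod hFD E hpT hpS hNS H g x₀ hg n

/-- The determinant of a Hecke-Galois datum is trivial where the cyclotomic character is. -/
theorem det_eq_one (hFD : FD.Stmt_FD) [Fact p.Prime]
    (hpT : (p : T) ∈ IsLocalRing.maximalIdeal T) (hpS : p ∈ S)
    (hNS : ∀ q : ℕ, q.Prime → q ∣ N → q ∈ S)
    (H : CuspForm.HeckeGaloisRepDatum N (↑S : Set ℕ) 𝒪 θ T)
    (g : GQ) (hg : eps p g = 1) :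
    LinearMap.det (H.ρ.ρ g) = 1 := by
  rw [← sub_eq_zero]
  have hK := Ideal.iInf_pow_eq_bot_of_isLocalRing (IsLocalRing.maximalIdeal T)
    (IsLocalRing.maximalIdeal.isMaximal T).ne_top
  rw [← Ideal.mem_bot, ← hK, Ideal.mem_iInf]
  intro n
  obtain ⟨L₁, hL₁, h₁⟩ := H.ρ.isAdicContinuous n
  obtain ⟨L₃, hL₃, h₃⟩ := eps_level' p n
  obtain ⟨L, hL, hLn, hLle⟩ := exists_normal_ge (L₁ ⊔ L₃) inferInstance
  have hle₁ : L₁ ≤ L := le_trans le_sup_left hLle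
  have hle₃ : L₃ ≤ L := le_trans le_sup_right hLle
  obtain ⟨ℓ, A, σ, k, -, hℓ, hℓS, hA, hσ, hgσ, -⟩ := hFD L g S
  have hℓS' : ℓ ∉ (↑S : Set ℕ) := by simpa using hℓS
  have hℓN : ¬ ℓ ∣ N := fun h => hℓS (hNS ℓ hℓ h)
  have hℓp : ℓ ≠ p := fun h => hℓS (h ▸ hpS)
  have h1 : LinearMap.det (H.ρ.ρ g) - LinearMap.det (H.ρ.ρ (σ ^ k)) ∈
      IsLocalRing.maximalIdeal T ^ n :=
    det_sub_mem_of_inv_mul H.ρ.ρ _ (h₁ _ (inv_mul_fixes fun x hx => hgσ x (hle₁ hx)))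
  have h2 : LinearMap.det (H.ρ.ρ (σ ^ k)) = ((ℓ ^ k : ℕ) : T) := by
    rw [map_pow, map_pow, det_of_charpoly H.ρ.finrank_eq (H.ρ.ρ σ) _ _
      (H.charpoly_frob ℓ hℓ hℓN hℓS' A hA σ hσ)]
    push_cast
    rfl
  have h3 := h₃ g (σ ^ k) fun x hx => hgσ x (hle₃ hx)
  rw [hg, map_pow, Units.val_one, Units.val_pow_eq_pow_val, eps_frob p hℓ hℓp hA hσ] at h3
  have h4 : ((p : ℤ) ^ n) ∣ (1 - (ℓ : ℤ) ^ k) := by
    rw [← PadicInt.pow_p_dvd_int_iff]
    push_cast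
    exact Ideal.mem_span_singleton.mp h3
  obtain ⟨d, hd⟩ := h4
  have h5 : (1 : T) - ((ℓ ^ k : ℕ) : T) ∈ IsLocalRing.maximalIdeal T ^ n := by
    have : (1 : T) - ((ℓ ^ k : ℕ) : T) = (p : T) ^ n * (d : T) := by
      have := congrArg (Int.cast : ℤ → T) hd
      push_cast at this ⊢
      exact this
    rw [this]
    exact Ideal.mul_mem_right _ _ (Ideal.pow_mem_pow hpT n)
  have : LinearMap.det (H.ρ.ρ g) - 1 =
      (LinearMap.det (H.ρ.ρ g) - LinearMap.det (H.ρ.ρ (σ ^ k))) - (1 - ((ℓ ^ k : ℕ) : T)) := by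
    rw [h2]; ring
  rw [this]
  exact Ideal.sub_mem _ h1 h5

/-- **S34**, from Frobenius density and the bad reduction contract. -/
theorem S34_of (hFD : FD.Stmt_FD) (hES : Stmt_ES34) (hp : p.Prime)
    (hp𝒪 : (p : 𝒪) ∈ IsLocalRing.maximalIdeal 𝒪) (hpS : p ∈ S)
    (hNS : ∀ q : ℕ, q.Prime → q ∣ N → q ∈ S)
    (H : CuspForm.HeckeGaloisRepDatum N (↑S : Set ℕ) 𝒪 θ T)
    (q : ℕ) (hq : q.Prime) (hqp : q ≠ p) (hqN : q ∣ N) (hq2 : ¬ q ^ 2 ∣ N) :
    H.ρ.IsUnipotentOnInertiaAt q := by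
  have : Fact p.Prime := ⟨hp⟩
  obtain ⟨E, hE⟩ := hES p N S hpS hNS
  have hpT : (p : T) ∈ IsLocalRing.maximalIdeal T := by
    have h1 : (p : T) = algebraMap 𝒪 T (p : 𝒪) := by rw [map_natCast]
    rw [h1]
    exact map_nonunit (algebraMap 𝒪 T) _ hp𝒪
  intro P hP σ hσ
  have hε : eps p σ = 1 := eps_inertia p hq hqp hP hσ
  have hu := hE q hq hqN hq2 hqp P hP σ hσ
  have hτ : tauE E.ρ (eps p) σ = E.ΘΛ 2 := by
    unfold tauE
    rw [hε, Units.val_one, one_smul, map_ofNat]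
    have e1 : E.ρ σ * E.ρ σ⁻¹ = 1 := by rw [← map_mul, mul_inv_cancel, map_one]
    have e2 := congrArg (· * E.ρ σ⁻¹) hu
    simp only [zero_mul, mul_assoc, sub_mul, one_mul, e1] at e2
    simp only [mul_sub, mul_one, e1] at e2
    have e3 : E.ρ σ + E.ρ σ⁻¹ = (E.ρ σ - 1 - (1 - E.ρ σ⁻¹)) + (1 + 1) := by abel
    rw [e3, e2, zero_add, one_add_one_eq_two]
  rw [charpoly_eq_of_finrank_two H.ρ.finrank_eq, trace_transfer hFD E hpT hpS hNS H σ 2 hτ,
    det_eq_one hFD hpT hpS hNS H σ hε, map_ofNat]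
  simp only [map_ofNat, map_one]
  ring

end Fermat.Agent.BR
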